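import Mathlib

/-!
# Chebotarev bridge, part B: uniqueness of Frobenius elements away from finitely many primes

For a number field `K` we define the elementary Frobenius predicate `IsFrobAt956 σ p P`
(`σ x ≡ x ^ p mod P` on `𝓞 K`) and show that, outside an explicit finite set of prime numbers,
a Frobenius element at a prime `P` of `𝓞 K` is unique.  No ramification theory is used.
-/

set_option autoImplicit false

namespace Fermat.Agent.Lib.Cheb

open NumberField

/-- `σ` is a Frobenius element at the prime `P` of `𝓞 K` with respect to the prime number `p`: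
`σ x ≡ x ^ p mod P` for every algebraic integer `x` of `K`. -/
def IsFrobAt956 {K : Type*} [Field K] [NumberField K] (σ : K ≃ₐ[ℚ] K) (p : ℕ) (P : Ideal (𝓞 K)) : Prop :=
  ∀ x : 𝓞 K, σ • x - x ^ p ∈ P

theorem isFrobAt956_iff {K : Type*} [Field K] [NumberField K] (σ : K ≃ₐ[ℚ] K) (p : ℕ) (P : Ideal (𝓞 K)) :
    IsFrobAt956 σ p P ↔ ∀ x : 𝓞 K, ∃ y ∈ P, σ (x : K) - (x : K) ^ p = (y : K) := by
  constructor
  · intro h x
    exact ⟨σ • x - x ^ p, h x, by simp; rfl⟩
  · intro h x
    obtain ⟨y, hy, hxy⟩ := h x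
    have : σ • x - x ^ p = y := by
      apply RingOfIntegers.ext
      rw [← hxy]
      simp
      rfl
    rw [this]
    exact hy

/-- Two Frobenius elements at the same prime differ by an element acting trivially modulo
that prime. -/
theorem IsFrobAt956.mul_inv_smul_sub_mem {K : Type*} [Field K] [NumberField K] {σ τ : K ≃ₐ[ℚ] K} {p : ℕ}
    {P : Ideal (𝓞 K)} (hσ : IsFrobAt956 σ p P) (hτ : IsFrobAt956 τ p P) (z : 𝓞 K) :
    (σ * τ⁻¹) • z - z ∈ P := by
  simpa [mul_smul] using sub_mem (hσ (τ⁻¹ • z)) (hτ (τ⁻¹ • z))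

/-- A nontrivial automorphism of a number field moves some algebraic integer. -/
theorem exists_smul_ne956 {K : Type*} [Field K] [NumberField K] (g : K ≃ₐ[ℚ] K) (hg : g ≠ 1) :
    ∃ x : 𝓞 K, g • x - x ≠ 0 := by
  by_contra hcon
  push Not at hcon
  apply hg
  ext z
  obtain ⟨a, b, hb, rfl⟩ := IsFractionRing.div_surjective (𝓞 K) z
  have ha' : g (a : K) = a := by
    have := congrArg (fun t : 𝓞 K => (t : K)) (sub_eq_zero.mp (hcon a))
    exact this
  have hb' : g (b : K) = b := by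
    have := congrArg (fun t : 𝓞 K => (t : K)) (sub_eq_zero.mp (hcon b))
    exact this
  rw [map_div₀]
  show g (a : K) / g (b : K) = _
  rw [ha', hb']
  rfl

/-- Outside a finite set of prime numbers, an automorphism of a number field acting trivially
modulo a prime of `𝓞 K` is the identity (i.e. inertia groups are trivial). -/
theorem exists_finset_inertia_trivial956 (K : Type*) [Field K] [NumberField K] :
    ∃ B : Finset ℕ, ∀ p : ℕ, p.Prime → p ∉ B → ∀ P : Ideal (𝓞 K), P.IsPrime → (p : 𝓞 K) ∈ P →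
      ∀ g : K ≃ₐ[ℚ] K, (∀ z : 𝓞 K, g • z - z ∈ P) → g = 1 := by
  classical
  choose x hx using exists_smul_ne956 (K := K)
  let f : (K ≃ₐ[ℚ] K) → 𝓞 K := fun g => if h : g = 1 then 1 else g • (x g h) - x g h
  have hf : ∀ g, f g ≠ 0 := by
    intro g
    by_cases h : g = 1
    · simp [f, h]
    · simp only [f, h, dite_false]
      exact hx g h
  let d : 𝓞 K := ∏ g : K ≃ₐ[ℚ] K, f g
  have hd : d ≠ 0 := Finset.prod_ne_zero_iff.mpr fun g _ => hf g
  let m : ℕ := Ideal.absNorm (Ideal.span {d})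
  have hm : m ≠ 0 := by
    intro h
    rw [Ideal.absNorm_eq_zero_iff, Ideal.span_singleton_eq_bot] at h
    exact hd h
  refine ⟨m.primeFactors, fun p hp hpB P hP hpP g hg => ?_⟩
  by_contra hg1
  have hpm : ¬ p ∣ m := fun h => hpB (Nat.mem_primeFactors.mpr ⟨hp, h, hm⟩)
  have hfg : f g ∈ P := by
    simp only [f, hg1, dite_false]
    exact hg _
  have hdP : d ∈ P := Ideal.mem_of_dvd P (Finset.dvd_prod_of_mem f (Finset.mem_univ g)) hfg
  have hmP : (m : 𝓞 K) ∈ P := by
    have h1 : (m : 𝓞 K) ∈ Ideal.span {d} := Ideal.absNorm_mem _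
    exact (Ideal.span_singleton_le_iff_mem P |>.mpr hdP) h1
  have hcop : IsCoprime (p : ℤ) (m : ℤ) :=
    Nat.isCoprime_iff_coprime.mpr ((Nat.Prime.coprime_iff_not_dvd hp).mpr hpm)
  obtain ⟨a, b, hab⟩ := hcop
  have h1 : (1 : 𝓞 K) ∈ P := by
    have h2 : ((a * p + b * m : ℤ) : 𝓞 K) = 1 := by rw [hab]; simp
    rw [← h2]
    push_cast
    exact P.add_mem (P.mul_mem_left _ hpP) (P.mul_mem_left _ hmP)
  exact hP.ne_top ((Ideal.eq_top_iff_one P).mpr h1)

/-- A finite set of prime numbers outside of which Frobenius elements of `K` are unique. -/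
noncomputable def badPrimes956 (K : Type*) [Field K] [NumberField K] : Finset ℕ :=
  (exists_finset_inertia_trivial956 K).choose

theorem eq_one_of_smul_sub_mem956 {K : Type*} [Field K] [NumberField K] {p : ℕ} (hp : p.Prime)
    (hpB : p ∉ badPrimes956 K) {P : Ideal (𝓞 K)} (hP : P.IsPrime) (hpP : (p : 𝓞 K) ∈ P)
    {g : K ≃ₐ[ℚ] K} (hg : ∀ z : 𝓞 K, g • z - z ∈ P) : g = 1 :=
  (exists_finset_inertia_trivial956 K).choose_spec p hp hpB P hP hpP g hg

/-- Uniqueness of Frobenius elements away from the bad primes. -/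
theorem IsFrobAt956.unique {K : Type*} [Field K] [NumberField K] {p : ℕ} (hp : p.Prime)
    (hpB : p ∉ badPrimes956 K) {P : Ideal (𝓞 K)} (hP : P.IsPrime) (hpP : (p : 𝓞 K) ∈ P)
    {σ τ : K ≃ₐ[ℚ] K} (hσ : IsFrobAt956 σ p P) (hτ : IsFrobAt956 τ p P) : σ = τ := by
  have h := eq_one_of_smul_sub_mem956 hp hpB hP hpP (g := σ * τ⁻¹)
    (fun z => hσ.mul_inv_smul_sub_mem hτ z)
  exact mul_inv_eq_one.mp h

/-- Mathlib's `IsArithFrobAt` implies the elementary Frobenius predicate. -/
theorem isFrobAt956_of_isArithFrobAt {K : Type*} [Field K] [NumberField K] {p : ℕ}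
    (hp : p.Prime) {P : Ideal (𝓞 K)} (hP : P.IsPrime) (hpP : (p : 𝓞 K) ∈ P)
    {σ : K ≃ₐ[ℚ] K} (h : IsArithFrobAt ℤ σ P) : IsFrobAt956 σ p P := by
  have hunder : P.under ℤ = Ideal.span {(p : ℤ)} := by
    have hmax : (Ideal.span {(p : ℤ)}).IsMaximal :=
      PrincipalIdealRing.isMaximal_of_irreducible (Nat.prime_iff_prime_int.mp hp).irreducible
    have hle : Ideal.span {(p : ℤ)} ≤ P.under ℤ := by
      rw [Ideal.span_le, Set.singleton_subset_iff]
      show algebraMap ℤ (𝓞 K) (p : ℤ) ∈ P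
      simpa using hpP
    exact (hmax.eq_of_le (Ideal.IsPrime.under ℤ P).ne_top hle).symm
  have hcard : Nat.card (ℤ ⧸ P.under ℤ) = p := by
    rw [hunder, Nat.card_congr (Int.quotientSpanNatEquivZMod p).toEquiv, Nat.card_zmod]
  intro x
  have := h x
  rw [hcard] at this
  exact this

end Fermat.Agent.Lib.Cheb
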