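import Fermat.Agent.Lib.Cheb.Bridge956A
import Fermat.Agent.Lib.Cheb.Bridge956B

/-!
# Chebotarev bridge, part C: lifting Frobenius elements from a number field to `ℚ̄`

Let `K ⊆ ℚ̄` be a finite normal extension of `ℚ`.  For a prime `P` of `𝓞 K` over the prime
number `p` we construct a valuation subring `A` of `ℚ̄` over `P`, and show that the restriction
to `K` of a Frobenius element at `A` is a Frobenius element at `P`.  Away from the finitely many
bad primes of `K`, every Frobenius element at `P` therefore lifts to a Frobenius element (in the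
Prelude's sense) of the absolute Galois group of `ℚ`.
-/

set_option autoImplicit false

namespace Fermat.Agent.Lib.Cheb

open NumberField
open Fermat.Agent.S54

/-- Products of elements of a valuation subring with nonunits are nonunits. -/
theorem mul_mem_nonunits956 {F : Type*} [Field F] (A : ValuationSubring F) {a b : F}
    (ha : a ∈ A) (hb : b ∈ A.nonunits) : a * b ∈ A.nonunits := by
  rw [ValuationSubring.mem_nonunits_iff] at hb ⊢
  rw [map_mul]
  have h1 : A.valuation a ≤ 1 := (A.valuation_le_one_iff a).mpr ha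
  calc A.valuation a * A.valuation b ≤ 1 * A.valuation b := by gcongr
    _ = A.valuation b := one_mul _
    _ < 1 := hb

/-- A finite-dimensional intermediate field of `ℚ̄/ℚ` is a number field. -/
theorem numberField_intermediateField956 (K : IntermediateField ℚ (AlgebraicClosure ℚ))
    [FiniteDimensional ℚ K] : NumberField K := ⟨⟩

/-- Algebraic integers of `K ⊆ ℚ̄` are algebraic integers of `ℚ̄`. -/
theorem isIntegral_coe956 (K : IntermediateField ℚ (AlgebraicClosure ℚ)) (x : 𝓞 K) :
    IsIntegral ℤ (((x : K) : AlgebraicClosure ℚ)) := by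
  have h : IsIntegral ℤ (x : K) := x.2
  exact h.map (IsScalarTower.toAlgHom ℤ K (AlgebraicClosure ℚ))

/-- Every valuation subring of `ℚ̄` contains the algebraic integers of `K`. -/
theorem coe_mem_valuationSubring956 (K : IntermediateField ℚ (AlgebraicClosure ℚ))
    (A : ValuationSubring (AlgebraicClosure ℚ)) (x : 𝓞 K) :
    ((x : K) : AlgebraicClosure ℚ) ∈ A :=
  isIntegral_mem_valuationSubring A (isIntegral_coe956 K x)

/-- Above every prime `P` of `𝓞 K` containing the prime number `p` there is a valuation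
subring `A` of `ℚ̄` over `p` whose maximal ideal cuts out exactly `P` on `𝓞 K`. -/
theorem exists_valuationSubring_over956 (K : IntermediateField ℚ (AlgebraicClosure ℚ))
    [NumberField K] {p : ℕ} (hp : p.Prime) (P : Ideal (𝓞 K)) (hP : P.IsPrime)
    (hpP : (p : 𝓞 K) ∈ P) :
    ∃ A : ValuationSubring (AlgebraicClosure ℚ), A.LiesOverPrime p ∧
      ∀ x : 𝓞 K, ((x : K) : AlgebraicClosure ℚ) ∈ A.nonunits ↔ x ∈ P := by
  let ι : 𝓞 K →+* AlgebraicClosure ℚ :=
    (algebraMap K (AlgebraicClosure ℚ)).comp (algebraMap (𝓞 K) K)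
  have hι : ∀ x : 𝓞 K, ι x = ((x : K) : AlgebraicClosure ℚ) := fun x => rfl
  have hιinj : Function.Injective ι :=
    (algebraMap K (AlgebraicClosure ℚ)).injective.comp RingOfIntegers.coe_injective
  let A₀ : Subring (AlgebraicClosure ℚ) := ι.range
  let ι' : 𝓞 K →+* A₀ := ι.rangeRestrict
  have hι'surj : Function.Surjective ι' := ι.rangeRestrict_surjective
  let I : Ideal A₀ := P.map ι'
  have hI : I ≠ ⊤ := by
    intro h
    have h1 : (1 : A₀) ∈ I := by rw [h]; trivial
    obtain ⟨x, hx, hx1⟩ := (Ideal.mem_map_iff_of_surjective ι' hι'surj).mp h1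
    have h2 : ι x = 1 := congrArg Subtype.val hx1
    have h3 : x = 1 := hιinj (by rw [h2, map_one])
    exact hP.ne_top ((Ideal.eq_top_iff_one P).mpr (h3 ▸ hx))
  obtain ⟨A, -, hA⟩ := Ideal.image_subset_nonunits_valuationSubring I hI
  have hPA : ∀ y ∈ P, ((y : K) : AlgebraicClosure ℚ) ∈ A.nonunits := by
    intro y hy
    exact hA ⟨ι' y, Ideal.mem_map_of_mem _ hy, rfl⟩
  have hPne : P ≠ ⊥ := by
    intro h
    rw [h, Ideal.mem_bot] at hpP
    have : (p : 𝓞 K) ≠ 0 := by exact_mod_cast hp.ne_zero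
    exact this hpP
  have hPmax : P.IsMaximal := hP.isMaximal hPne
  refine ⟨A, ?_, fun x => ⟨fun hx => ?_, hPA x⟩⟩
  · have := hPA _ hpP
    show ((p : ℕ) : AlgebraicClosure ℚ) ∈ A.nonunits
    have h2 : (((p : 𝓞 K) : K) : AlgebraicClosure ℚ) = (p : AlgebraicClosure ℚ) := by
      simp
    rw [← h2]
    exact this
  · by_contra hxP
    obtain ⟨y, z, hz, hyz⟩ := hPmax.exists_inv hxP
    have h1 : ι (y * x + z) = 1 := by rw [hyz, map_one]
    rw [map_add, map_mul] at h1
    have h2 : (1 : AlgebraicClosure ℚ) ∈ A.nonunits := by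
      rw [← h1]
      exact A.nonunits.add_mem
        (mul_mem_nonunits956 A (coe_mem_valuationSubring956 K A y) hx) (hPA z hz)
    rw [ValuationSubring.mem_nonunits_iff] at h2
    simp at h2

/-- The restriction to a normal subfield `K` of an automorphism of `ℚ̄` satisfying the
Frobenius congruence at `A` is a Frobenius element at the prime of `𝓞 K` below `A`. -/
theorem isFrobAt956_restrictNormal (K : IntermediateField ℚ (AlgebraicClosure ℚ))
    [NumberField K] [Normal ℚ K] {p : ℕ} (P : Ideal (𝓞 K))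
    (A : ValuationSubring (AlgebraicClosure ℚ))
    (hAP : ∀ x : 𝓞 K, ((x : K) : AlgebraicClosure ℚ) ∈ A.nonunits ↔ x ∈ P)
    (φ : AlgebraicClosure ℚ ≃ₐ[ℚ] AlgebraicClosure ℚ)
    (hφ : ∀ x : AlgebraicClosure ℚ, IsIntegral ℤ x → φ x - x ^ p ∈ A.nonunits) :
    IsFrobAt956 (φ.restrictNormal K) p P := by
  intro x
  rw [← hAP]
  have h1 : (((φ.restrictNormal K • x - x ^ p : 𝓞 K) : K) : AlgebraicClosure ℚ) =
      φ ((x : K) : AlgebraicClosure ℚ) - ((x : K) : AlgebraicClosure ℚ) ^ p := by
    have h2 : (((φ.restrictNormal K • x : 𝓞 K) : K) : AlgebraicClosure ℚ) =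
        φ ((x : K) : AlgebraicClosure ℚ) :=
      AlgEquiv.restrictNormal_commutes φ K (x : K)
    rw [← h2]
    simp
  rw [h1]
  exact hφ _ (isIntegral_coe956 K x)

/-- **Lifting Frobenius elements.**  Let `K ⊆ ℚ̄` be a finite normal extension of `ℚ`, `p` a
prime number outside the finite set `badPrimes956 K`, `P` a prime of `𝓞 K` over `p` and `τ` a
Frobenius element at `P`.  Then there are a valuation subring `A` of `ℚ̄` over `p` and a
Frobenius element `φ` at `A` (in the Prelude's sense) whose restriction to `K` is `τ`. -/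
theorem exists_frobenius_lift956 (K : IntermediateField ℚ (AlgebraicClosure ℚ))
    [NumberField K] [Normal ℚ K] {p : ℕ} (hp : p.Prime) (hpB : p ∉ badPrimes956 K)
    (P : Ideal (𝓞 K)) (hP : P.IsPrime) (hpP : (p : 𝓞 K) ∈ P)
    (τ : K ≃ₐ[ℚ] K) (hτ : IsFrobAt956 τ p P) :
    ∃ (A : ValuationSubring (AlgebraicClosure ℚ))
      (φ : AlgebraicClosure ℚ ≃ₐ[ℚ] AlgebraicClosure ℚ),
      A.LiesOverPrime p ∧ A.IsFrobeniusAt φ p ∧ φ.restrictNormal K = τ ∧
      ∀ x : K, φ (x : AlgebraicClosure ℚ) = ((τ x : K) : AlgebraicClosure ℚ) := by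
  obtain ⟨A, hA, hAP⟩ := exists_valuationSubring_over956 K hp P hP hpP
  obtain ⟨φ, hφA, hφ⟩ := exists_frobeniusAt956 p hp A hA
  have h1 : IsFrobAt956 (φ.restrictNormal K) p P := isFrobAt956_restrictNormal K P A hAP φ hφ
  have h2 : φ.restrictNormal K = τ := h1.unique hp hpB hP hpP hτ
  refine ⟨A, φ, hA, hφA, h2, fun x => ?_⟩
  rw [← h2]
  exact (AlgEquiv.restrictNormal_commutes φ K x).symm

end Fermat.Agent.Lib.Cheb
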