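import Mathlib
import Fermat.Prelude.Def_EllipticCurve_FrobeniusTrace
import Fermat.Agent.Lib.Cheb.Spec

/-!
# Shared library CHEB — Tier 3 ("CHEB-Q"): quantitative Chebotarev, frozen interface

Client: row S48 (Deligne–Serre, Lemma 8.4): a set of primes whose Frobenius lies in a subset `C`
of a finite Galois group `G` has **lower Dirichlet density** at least `|C| / |G|`.

All densities are stated in *finite-sum form* (no `tsum`, no summability side conditions):
`HasLowerDensity X d` says that for every `ε > 0` and every `s > 1` close to `1` some finite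
`T ⊆ X` has `∑_{p ∈ T} p ^ (-s) ≥ (d - ε) log (1 / (s - 1))`.

Pieces (plan, owners, status: `coord/CHEB-Q.md` on branch `origin/helper993`):
* `CycDensityStatement`   (Q-CYC)   quantitative version of `Spec.CycStatement`;
* `CrossDensityStatement` (Q-CROSS) field crossing with `ℚ(ζ_m)`, `m` prime, `m ≡ 1 mod (ord g) ^ r`;
* `BridgeDensityStatement` (Q-BR)   from number fields to valuation subrings of `ℚ̄`;
* `ChebDensityStatement`  (END-Q)   the client statement.
-/

set_option autoImplicit false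

open NumberField
open scoped Pointwise

namespace Fermat.Agent.Lib.Cheb.SpecQ

open Fermat.Agent.Lib.Cheb.Spec

/-- `X` has lower Dirichlet density at least `d` (finite-sum form). -/
def HasLowerDensity (X : Set ℕ) (d : ℝ) : Prop :=
  ∀ ε : ℝ, 0 < ε → ∃ δ : ℝ, 0 < δ ∧ ∀ s : ℝ, 1 < s → s < 1 + δ →
    ∃ T : Finset ℕ, (∀ p ∈ T, p ∈ X) ∧
      (d - ε) * Real.log (1 / (s - 1)) ≤ ∑ p ∈ T, (p : ℝ) ^ (-s)

/-- `X` has upper Dirichlet density at most `d` (finite-sum form). -/
def HasUpperDensity (X : Set ℕ) (d : ℝ) : Prop :=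
  ∀ ε : ℝ, 0 < ε → ∃ δ : ℝ, 0 < δ ∧ ∀ s : ℝ, 1 < s → s < 1 + δ →
    ∀ T : Finset ℕ, (∀ p ∈ T, p ∈ X) →
      ∑ p ∈ T, (p : ℝ) ^ (-s) ≤ (d + ε) * Real.log (1 / (s - 1))

/-- The rational primes `p` such that some prime `P ∣ p` of `𝓞 L` has trivial inertia and
arithmetic Frobenius `g` (i.e. the Frobenius class of `p` is the conjugacy class of `g`). -/
def frobPrimes (L : Type) [Field L] [NumberField L] (g : L ≃ₐ[ℚ] L) : Set ℕ :=
  {p | p.Prime ∧ ∃ P : Ideal (𝓞 L), P.IsPrime ∧ (p : 𝓞 L) ∈ P ∧ InertiaTrivial L P ∧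
    IsArithFrobAt ℤ g P}

/-- `|conjugacy class of g| / |Gal(L/ℚ)|`. -/
noncomputable def classDensity (L : Type) [Field L] [NumberField L] (g : L ≃ₐ[ℚ] L) : ℝ :=
  (Nat.card (conjugatesOf g) : ℝ) / (Nat.card (L ≃ₐ[ℚ] L) : ℝ)

/-- (Q-CYC) quantitative cyclotomic case, in the situation of `Spec.CycStatement`. -/
def CycDensityStatement : Prop :=
  ∀ (L : Type) [Field L] [NumberField L] [IsGalois ℚ L] (m : ℕ) (ζ : L), 0 < m →
    IsPrimitiveRoot ζ m → ∀ g : L ≃ₐ[ℚ] L, (∀ k : ℕ, (g ^ k) ζ = ζ → g ^ k = 1) →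
    HasLowerDensity (frobPrimes L g) (classDensity L g)

/-- Finite-level Chebotarev density theorem (lower bound; the upper bound follows). -/
def ChebDensityFiniteStatement : Prop :=
  ∀ (L : Type) [Field L] [NumberField L] [IsGalois ℚ L] (g : L ≃ₐ[ℚ] L),
    HasLowerDensity (frobPrimes L g) (classDensity L g)

/-- (Q-CROSS) quantitative field crossing. -/
def CrossDensityStatement : Prop :=
  CycDensityStatement → ChebDensityFiniteStatement

/-- The primes `p ∉ S` at which `ρ` is unramified and some Frobenius element is mapped into `C`. -/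
def frobPrimesHom {G : Type} [Group G] (ρ : GQ →* G) (C : Set G) (S : Finset ℕ) : Set ℕ :=
  {p | p.Prime ∧ p ∉ S ∧ ∃ (A : ValuationSubring Qb) (τ : GQ),
    A.LiesOverPrime p ∧ A.IsFrobeniusAt τ p ∧ (∀ ι ∈ A.inertiaSubgroupIn ℚ, ρ ι = 1) ∧ ρ τ ∈ C}

/-- (END-Q) Chebotarev density theorem, client form: for a homomorphism `ρ` on `Gal(ℚ̄/ℚ)` that
factors through a finite extension `E`, and any subset `C` of the target, the primes `p ∉ S`
(unramified for `ρ`) with a Frobenius in `C` have lower Dirichlet density at least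
`|C ∩ im ρ| / |im ρ|`. -/
def ChebDensityStatement : Prop :=
  ∀ (G : Type) [Group G] (ρ : GQ →* G) (E : IntermediateField ℚ Qb), FiniteDimensional ℚ E →
    (∀ σ : GQ, (∀ x ∈ E, σ x = x) → ρ σ = 1) → ∀ (C : Set G) (S : Finset ℕ),
    HasLowerDensity (frobPrimesHom ρ C S)
      ((Nat.card ↥(C ∩ Set.range ρ) : ℝ) / (Nat.card ↥(Set.range ρ) : ℝ))

/-- (Q-BR) bridge. -/
def BridgeDensityStatement : Prop :=
  ChebDensityFiniteStatement → ChebDensityStatement

end Fermat.Agent.Lib.Cheb.SpecQ
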