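import Fermat.Agent.Lib.Cheb.ChebDensityOf
import Fermat.Agent.Lib.Cheb.H56.QAlg

/-!
# CHEB Tier 3 (CHEB-Q) END: the Chebotarev density theorem (lower Dirichlet density), unconditional

Client statements (finite-sum Dirichlet densities, see `SpecQ.lean` and `DensityBasic.lean`):

* `chebDensity : SpecQ.ChebDensityStatement` — for `ρ : Gal(ℚ̄/ℚ) →* G` trivial on `Gal(ℚ̄/E)`,
  `E/ℚ` finite, any `C ⊆ G`, any finite `S`: the primes `p ∉ S` such that `ρ` is unramified at
  some valuation subring `A` over `p` and `ρ(τ) ∈ C` for some Frobenius `τ` at `A` have lower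
  Dirichlet density at least `|C ∩ range ρ| / |range ρ|`.
* `chebDensityClient : ChebQ.Spec.ChebDensityClientStatement` — the same in the form used by
  Deligne–Serre Lemma 8.4: a set `X` of upper density `≤ η` containing all primes with a
  Frobenius in `C` forces `|C ∩ range ρ| ≤ η |range ρ|`.
* `chebDensityFinite`, `chebDensitySet` — finite level (Galois number fields, `IsArithFrobAt`).

Pieces: AN (H44), EP/DEG (H163/H104), ALG (H221/H223/H281), Q-ABS (H776/H221/H163/H56),
Q-SUM (H221), Q-ALG (H56; 2nd copy H968), Q-CYC, Q-DISJ, Q-SET, adapters (H993), CROSS-Q (H968 on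
H236), Q-BR (H116), Tier-1 pieces Z/A/D/M.
-/

set_option autoImplicit false

namespace Fermat.Agent.Lib.Cheb

/-- Chebotarev density theorem, finite level. -/
theorem chebDensityFinite : SpecQ.ChebDensityFiniteStatement :=
  chebDensityFinite_of_cycCount H56.cycCount

/-- Chebotarev density theorem, finite level, arbitrary subsets of the Galois group. -/
theorem chebDensitySet : SpecQ.ChebDensitySetStatement :=
  chebDensitySet_of_cycCount H56.cycCount

/-- **Chebotarev density theorem** (lower Dirichlet density), client form over `ℚ̄`. -/
theorem chebDensity : SpecQ.ChebDensityStatement :=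
  chebDensity_of_cycCount H56.cycCount

/-- Chebotarev density theorem, client form of `ChebQ.Spec` (Deligne–Serre Lemma 8.4 input). -/
theorem chebDensityClient : Fermat.Agent.Lib.ChebQ.Spec.ChebDensityClientStatement :=
  chebDensityClient_of_cycCount H56.cycCount

end Fermat.Agent.Lib.Cheb
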