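import Fermat.Agent.Lib.Cheb.Bridge956C

/-!
# Chebotarev bridge: from number fields to the absolute Galois group of `ℚ`

This file turns a *number-field level* qualitative Chebotarev statement (about primes of `𝓞 K`
for abstract Galois number fields `K`, phrased with the elementary Frobenius predicate
`IsFrobAt956`, or with Mathlib's `IsArithFrobAt` via `isFrobAt956_of_isArithFrobAt`) into the
*Prelude level* statement about valuation subrings of `ℚ̄` and `ValuationSubring.IsFrobeniusAt`.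

Main declarations:

* `NFChebPred956 K R` : outside every finite set of primes there is a prime `P` of `𝓞 K` with a
  Frobenius element `τ` at `P` satisfying `R τ`.
* `NFCheb956` / `NFChebWeak956` : the strong / weak (Frobenius density) qualitative Chebotarev
  statements for all Galois number fields.
* `exists_frobenius_of_nfChebPred956` : the general bridge for `K ⊆ ℚ̄`.
* `preludeCheb_of_nfCheb956`, `exists_frobenius_map_eq_of_nfCheb956` : strong consumers' forms.
* `preludeChebWeak_of_nfChebWeak956`, `exists_frobenius_zpowers_eq_of_nfChebWeak956` : weak forms.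
-/

set_option autoImplicit false

namespace Fermat.Agent.Lib.Cheb

open NumberField

/-- Number-field level qualitative Chebotarev with a predicate: outside every finite set `S` of
prime numbers there are a prime number `p`, a prime `P` of `𝓞 K` over `p` and a Frobenius
element `τ` at `P` with `R τ`. -/
def NFChebPred956 (K : Type*) [Field K] [NumberField K] (R : (K ≃ₐ[ℚ] K) → Prop) : Prop :=
  ∀ S : Finset ℕ, ∃ p : ℕ, p.Prime ∧ p ∉ S ∧ ∃ P : Ideal (𝓞 K), P.IsPrime ∧ (p : 𝓞 K) ∈ P ∧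
    ∃ τ : K ≃ₐ[ℚ] K, IsFrobAt956 τ p P ∧ R τ

/-- Number-field level strong qualitative Chebotarev: every element of the Galois group of a
Galois number field is a Frobenius element at primes over prime numbers outside any given
finite set. -/
def NFCheb956 : Prop :=
  ∀ (K : Type) [Field K] [NumberField K] [IsGalois ℚ K] (σ : K ≃ₐ[ℚ] K),
    NFChebPred956 K (fun τ => τ = σ)

/-- Number-field level weak qualitative Chebotarev (Frobenius density theorem): every cyclic
subgroup of the Galois group of a Galois number field is generated by a Frobenius element at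
primes over prime numbers outside any given finite set. -/
def NFChebWeak956 : Prop :=
  ∀ (K : Type) [Field K] [NumberField K] [IsGalois ℚ K] (σ : K ≃ₐ[ℚ] K),
    NFChebPred956 K (fun τ => Subgroup.zpowers τ = Subgroup.zpowers σ)

theorem nfChebWeak_of_nfCheb956 (H : NFCheb956) : NFChebWeak956 := by
  intro K _ _ _ σ S
  obtain ⟨p, hp, hpS, P, hP, hpP, τ, hτ, rfl⟩ := H K σ S
  exact ⟨p, hp, hpS, P, hP, hpP, τ, hτ, rfl⟩

/-- Prelude level strong qualitative Chebotarev: for a finite extension `L ⊆ ℚ̄` of `ℚ`, every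
`σ ∈ Gal(ℚ̄/ℚ)` agrees on `L` with a Frobenius element at a prime number outside any given
finite set. -/
def PreludeCheb956 : Prop :=
  ∀ (L : IntermediateField ℚ (AlgebraicClosure ℚ)) [FiniteDimensional ℚ L]
    (σ : AlgebraicClosure ℚ ≃ₐ[ℚ] AlgebraicClosure ℚ) (S : Finset ℕ),
    ∃ p : ℕ, p.Prime ∧ p ∉ S ∧ ∃ (A : ValuationSubring (AlgebraicClosure ℚ))
      (φ : AlgebraicClosure ℚ ≃ₐ[ℚ] AlgebraicClosure ℚ),
      A.LiesOverPrime p ∧ A.IsFrobeniusAt φ p ∧ ∀ x ∈ L, φ x = σ x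

/-- Prelude level weak qualitative Chebotarev: for a finite extension `L ⊆ ℚ̄` of `ℚ`, every
`σ ∈ Gal(ℚ̄/ℚ)` generates on `L` the same cyclic group as a Frobenius element at a prime number
outside any given finite set. -/
def PreludeChebWeak956 : Prop :=
  ∀ (L : IntermediateField ℚ (AlgebraicClosure ℚ)) [FiniteDimensional ℚ L]
    (σ : AlgebraicClosure ℚ ≃ₐ[ℚ] AlgebraicClosure ℚ) (S : Finset ℕ),
    ∃ p : ℕ, p.Prime ∧ p ∉ S ∧ ∃ (A : ValuationSubring (AlgebraicClosure ℚ))
      (φ : AlgebraicClosure ℚ ≃ₐ[ℚ] AlgebraicClosure ℚ),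
      A.LiesOverPrime p ∧ A.IsFrobeniusAt φ p ∧
      (∃ j : ℤ, ∀ x ∈ L, (φ ^ j) x = σ x) ∧ (∃ i : ℤ, ∀ x ∈ L, (σ ^ i) x = φ x)

/-- **General bridge.**  For a finite normal extension `K ⊆ ℚ̄` of `ℚ`, a number-field level
Chebotarev statement with predicate `R` yields Frobenius elements `φ` of `Gal(ℚ̄/ℚ)` (in the
Prelude's sense) with `R (φ|K)`, at prime numbers outside any given finite set. -/
theorem exists_frobenius_of_nfChebPred956 (K : IntermediateField ℚ (AlgebraicClosure ℚ))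
    [NumberField K] [Normal ℚ K] (R : (K ≃ₐ[ℚ] K) → Prop) (H : NFChebPred956 K R)
    (S : Finset ℕ) :
    ∃ p : ℕ, p.Prime ∧ p ∉ S ∧ ∃ (A : ValuationSubring (AlgebraicClosure ℚ))
      (φ : AlgebraicClosure ℚ ≃ₐ[ℚ] AlgebraicClosure ℚ),
      A.LiesOverPrime p ∧ A.IsFrobeniusAt φ p ∧ R (φ.restrictNormal K) := by
  classical
  obtain ⟨p, hp, hpS, P, hP, hpP, τ, hτ, hR⟩ := H (S ∪ badPrimes956 K)
  rw [Finset.mem_union, not_or] at hpS
  obtain ⟨A, φ, hA, hφ, hφτ, -⟩ := exists_frobenius_lift956 K hp hpS.2 P hP hpP τ hτ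
  exact ⟨p, hp, hpS.1, A, φ, hA, hφ, hφτ ▸ hR⟩

/-- The normal closure in `ℚ̄` of a finite extension of `ℚ`, with the instances needed to apply
number-field level statements to it. -/
theorem exists_normal_numberField_ge956 (L : IntermediateField ℚ (AlgebraicClosure ℚ))
    [FiniteDimensional ℚ L] :
    ∃ K : IntermediateField ℚ (AlgebraicClosure ℚ), L ≤ K ∧ FiniteDimensional ℚ K ∧
      Normal ℚ K := by
  have : Algebra.IsAlgebraic ℚ (AlgebraicClosure ℚ) := AlgebraicClosure.isAlgebraic ℚ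
  have : IsAlgClosure ℚ (AlgebraicClosure ℚ) := ⟨inferInstance, inferInstance⟩
  have : Normal ℚ (AlgebraicClosure ℚ) := IsAlgClosure.normal ℚ (AlgebraicClosure ℚ)
  exact ⟨IntermediateField.normalClosure ℚ L (AlgebraicClosure ℚ),
    IntermediateField.le_normalClosure L,
    normalClosure.is_finiteDimensional ℚ L (AlgebraicClosure ℚ),
    normalClosure.normal ℚ L (AlgebraicClosure ℚ)⟩

/-- If two automorphisms of `ℚ̄` have the same restriction to the normal subfield `K`, they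
agree on `K`. -/
theorem apply_eq_of_restrictNormal_eq956 (K : IntermediateField ℚ (AlgebraicClosure ℚ))
    [Normal ℚ K] {φ σ : AlgebraicClosure ℚ ≃ₐ[ℚ] AlgebraicClosure ℚ}
    (h : φ.restrictNormal K = σ.restrictNormal K) {x : AlgebraicClosure ℚ} (hx : x ∈ K) :
    φ x = σ x := by
  have h1 := AlgEquiv.restrictNormal_commutes φ K ⟨x, hx⟩
  have h2 := AlgEquiv.restrictNormal_commutes σ K ⟨x, hx⟩
  rw [h] at h1
  exact h1.symm.trans h2

/-- **Bridge, strong form**: number-field level Chebotarev implies Prelude level Chebotarev. -/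
theorem preludeCheb_of_nfCheb956 (H : NFCheb956) : PreludeCheb956 := by
  intro L _ σ S
  obtain ⟨K, hLK, hKfin, hKnormal⟩ := exists_normal_numberField_ge956 L
  have : NumberField K := numberField_intermediateField956 K
  have : IsGalois ℚ K := ⟨⟩
  obtain ⟨p, hp, hpS, A, φ, hA, hφ, hR⟩ :=
    exists_frobenius_of_nfChebPred956 K _ (H K (σ.restrictNormal K)) S
  exact ⟨p, hp, hpS, A, φ, hA, hφ, fun x hx => apply_eq_of_restrictNormal_eq956 K hR (hLK hx)⟩

/-- **Bridge, weak form**: the number-field level Frobenius density theorem implies its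
Prelude level version. -/
theorem preludeChebWeak_of_nfChebWeak956 (H : NFChebWeak956) : PreludeChebWeak956 := by
  intro L _ σ S
  obtain ⟨K, hLK, hKfin, hKnormal⟩ := exists_normal_numberField_ge956 L
  have : NumberField K := numberField_intermediateField956 K
  have : IsGalois ℚ K := ⟨⟩
  obtain ⟨p, hp, hpS, A, φ, hA, hφ, hR⟩ :=
    exists_frobenius_of_nfChebPred956 K _ (H K (σ.restrictNormal K)) S
  refine ⟨p, hp, hpS, A, φ, hA, hφ, ?_, ?_⟩
  · have h1 : σ.restrictNormal K ∈ Subgroup.zpowers (φ.restrictNormal K) := by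
      rw [hR]; exact Subgroup.mem_zpowers _
    obtain ⟨j, hj⟩ := Subgroup.mem_zpowers_iff.mp h1
    refine ⟨j, fun x hx => apply_eq_of_restrictNormal_eq956 K ?_ (hLK hx)⟩
    rw [← hj]
    exact map_zpow (AlgEquiv.restrictNormalHom K) φ j
  · have h1 : φ.restrictNormal K ∈ Subgroup.zpowers (σ.restrictNormal K) := by
      rw [← hR]; exact Subgroup.mem_zpowers _
    obtain ⟨i, hi⟩ := Subgroup.mem_zpowers_iff.mp h1
    refine ⟨i, fun x hx => apply_eq_of_restrictNormal_eq956 K ?_ (hLK hx)⟩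
    rw [← hi]
    exact map_zpow (AlgEquiv.restrictNormalHom K) σ i

/-! ### Consumers' forms: open subgroups and homomorphisms with open kernel -/

/-- Every open subgroup of `Gal(ℚ̄/ℚ)` contains the fixing subgroup of a finite extension. -/
theorem exists_fixingSubgroup_le956
    (U : Subgroup (AlgebraicClosure ℚ ≃ₐ[ℚ] AlgebraicClosure ℚ))
    (hU : IsOpen (U : Set (AlgebraicClosure ℚ ≃ₐ[ℚ] AlgebraicClosure ℚ))) :
    ∃ L : IntermediateField ℚ (AlgebraicClosure ℚ), FiniteDimensional ℚ L ∧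
      L.fixingSubgroup ≤ U := by
  have h1 : (U : Set (AlgebraicClosure ℚ ≃ₐ[ℚ] AlgebraicClosure ℚ)) ∈ nhds 1 :=
    hU.mem_nhds U.one_mem
  obtain ⟨E, hE, hEU⟩ := (krullTopology_mem_nhds_one_iff ℚ (AlgebraicClosure ℚ) _).mp h1
  exact ⟨E, hE, hEU⟩

/-- If `τ` and `σ` agree on `L` then `σ⁻¹ * τ` fixes `L`. -/
theorem inv_mul_mem_fixingSubgroup956 (L : IntermediateField ℚ (AlgebraicClosure ℚ))
    {τ σ : AlgebraicClosure ℚ ≃ₐ[ℚ] AlgebraicClosure ℚ} (h : ∀ x ∈ L, τ x = σ x) :
    σ⁻¹ * τ ∈ L.fixingSubgroup := by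
  rw [IntermediateField.mem_fixingSubgroup_iff]
  intro x hx
  rw [AlgEquiv.mul_apply, h x hx]
  exact σ.symm_apply_apply x

/-- Strong Chebotarev for open subgroups: every coset `σ U` of an open subgroup `U` of
`Gal(ℚ̄/ℚ)` contains a Frobenius element at a prime number outside any given finite set. -/
theorem exists_frobenius_mem_coset_of_preludeCheb956 (H : PreludeCheb956)
    (U : Subgroup (AlgebraicClosure ℚ ≃ₐ[ℚ] AlgebraicClosure ℚ))
    (hU : IsOpen (U : Set (AlgebraicClosure ℚ ≃ₐ[ℚ] AlgebraicClosure ℚ)))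
    (σ : AlgebraicClosure ℚ ≃ₐ[ℚ] AlgebraicClosure ℚ) (S : Finset ℕ) :
    ∃ p : ℕ, p.Prime ∧ p ∉ S ∧ ∃ (A : ValuationSubring (AlgebraicClosure ℚ))
      (φ : AlgebraicClosure ℚ ≃ₐ[ℚ] AlgebraicClosure ℚ),
      A.LiesOverPrime p ∧ A.IsFrobeniusAt φ p ∧ σ⁻¹ * φ ∈ U := by
  obtain ⟨L, hL, hLU⟩ := exists_fixingSubgroup_le956 U hU
  obtain ⟨p, hp, hpS, A, φ, hA, hφ, hφσ⟩ := H L σ S
  exact ⟨p, hp, hpS, A, φ, hA, hφ, hLU (inv_mul_mem_fixingSubgroup956 L hφσ)⟩

/-- Strong Chebotarev for homomorphisms with open kernel: every value `ρ σ` is the value of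
`ρ` at a Frobenius element at a prime number outside any given finite set. -/
theorem exists_frobenius_map_eq_of_preludeCheb956 (H : PreludeCheb956) {G : Type*} [Group G]
    (ρ : (AlgebraicClosure ℚ ≃ₐ[ℚ] AlgebraicClosure ℚ) →* G)
    (hρ : IsOpen (ρ.ker : Set (AlgebraicClosure ℚ ≃ₐ[ℚ] AlgebraicClosure ℚ)))
    (σ : AlgebraicClosure ℚ ≃ₐ[ℚ] AlgebraicClosure ℚ) (S : Finset ℕ) :
    ∃ p : ℕ, p.Prime ∧ p ∉ S ∧ ∃ (A : ValuationSubring (AlgebraicClosure ℚ))
      (φ : AlgebraicClosure ℚ ≃ₐ[ℚ] AlgebraicClosure ℚ),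
      A.LiesOverPrime p ∧ A.IsFrobeniusAt φ p ∧ ρ φ = ρ σ := by
  obtain ⟨p, hp, hpS, A, φ, hA, hφ, hmem⟩ :=
    exists_frobenius_mem_coset_of_preludeCheb956 H ρ.ker hρ σ S
  refine ⟨p, hp, hpS, A, φ, hA, hφ, ?_⟩
  rw [MonoidHom.mem_ker, map_mul, map_inv, inv_mul_eq_one] at hmem
  exact hmem.symm

/-- The kernel of a continuous homomorphism to a discrete group is open. -/
theorem isOpen_ker_of_continuous956 {G : Type*} [Group G] [TopologicalSpace G]
    [DiscreteTopology G] (ρ : (AlgebraicClosure ℚ ≃ₐ[ℚ] AlgebraicClosure ℚ) →* G)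
    (hρ : Continuous ρ) :
    IsOpen (ρ.ker : Set (AlgebraicClosure ℚ ≃ₐ[ℚ] AlgebraicClosure ℚ)) := by
  have : (ρ.ker : Set (AlgebraicClosure ℚ ≃ₐ[ℚ] AlgebraicClosure ℚ)) = ρ ⁻¹' {1} := by
    ext x
    simp [MonoidHom.mem_ker]
  rw [this]
  exact (isOpen_discrete _).preimage hρ

/-- Weak Chebotarev for homomorphisms with open kernel: the cyclic group generated by any
value `ρ σ` is generated by the value of `ρ` at a Frobenius element at a prime number outside
any given finite set. -/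
theorem exists_frobenius_zpowers_eq_of_preludeChebWeak956 (H : PreludeChebWeak956)
    {G : Type*} [Group G] (ρ : (AlgebraicClosure ℚ ≃ₐ[ℚ] AlgebraicClosure ℚ) →* G)
    (hρ : IsOpen (ρ.ker : Set (AlgebraicClosure ℚ ≃ₐ[ℚ] AlgebraicClosure ℚ)))
    (σ : AlgebraicClosure ℚ ≃ₐ[ℚ] AlgebraicClosure ℚ) (S : Finset ℕ) :
    ∃ p : ℕ, p.Prime ∧ p ∉ S ∧ ∃ (A : ValuationSubring (AlgebraicClosure ℚ))
      (φ : AlgebraicClosure ℚ ≃ₐ[ℚ] AlgebraicClosure ℚ),
      A.LiesOverPrime p ∧ A.IsFrobeniusAt φ p ∧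
      Subgroup.zpowers (ρ φ) = Subgroup.zpowers (ρ σ) := by
  obtain ⟨L, hL, hLU⟩ := exists_fixingSubgroup_le956 ρ.ker hρ
  obtain ⟨p, hp, hpS, A, φ, hA, hφ, ⟨j, hj⟩, ⟨i, hi⟩⟩ := H L σ S
  refine ⟨p, hp, hpS, A, φ, hA, hφ, le_antisymm ?_ ?_⟩
  · rw [Subgroup.zpowers_le]
    have hmem := hLU (inv_mul_mem_fixingSubgroup956 L hi)
    rw [MonoidHom.mem_ker, map_mul, map_inv, inv_mul_eq_one] at hmem
    rw [hmem, map_zpow]
    exact Subgroup.zpow_mem_zpowers _ _
  · rw [Subgroup.zpowers_le]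
    have hmem := hLU (inv_mul_mem_fixingSubgroup956 L hj)
    rw [MonoidHom.mem_ker, map_mul, map_inv, inv_mul_eq_one] at hmem
    rw [hmem, map_zpow]
    exact Subgroup.zpow_mem_zpowers _ _

theorem preludeChebWeak_of_preludeCheb956 (H : PreludeCheb956) : PreludeChebWeak956 := by
  intro L _ σ S
  obtain ⟨p, hp, hpS, A, φ, hA, hφ, hφσ⟩ := H L σ S
  exact ⟨p, hp, hpS, A, φ, hA, hφ, ⟨1, fun x hx => by simpa using hφσ x hx⟩,
    ⟨1, fun x hx => by simpa using (hφσ x hx).symm⟩⟩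

end Fermat.Agent.Lib.Cheb
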