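import Fermat.Prelude.Def_EllipticCurve_FrobeniusTrace
import Fermat.Agent.S54.FrobExists

/-!
# Chebotarev bridge, part A: Frobenius elements at a given valuation subring

For a valuation subring `A` of `ℚ̄` over a prime number `ℓ` there is a Frobenius element at `A`
(in the Prelude's sense `ValuationSubring.IsFrobeniusAt`) which moreover satisfies the Frobenius
congruence on the ring of all algebraic integers modulo the prime below `A`.
-/

set_option autoImplicit false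

namespace Fermat.Agent.Lib.Cheb

open scoped Pointwise
open Fermat.Agent.S54

/-- An automorphism stabilising the prime below `A` (elementwise) maps `A` into itself. -/
theorem map_mem_of_primeBelow_stable956 (ℓ : ℕ) (hℓ : ℓ.Prime)
    (A : ValuationSubring (AlgebraicClosure ℚ)) (hA : A.LiesOverPrime ℓ)
    (τ : AlgebraicClosure ℚ ≃ₐ[ℚ] AlgebraicClosure ℚ)
    (hτ : ∀ x, τ • x ∈ primeBelow A ↔ x ∈ primeBelow A) :
    ∀ x ∈ A, τ x ∈ A := by
  have : Algebra.IsAlgebraic ℚ (AlgebraicClosure ℚ) := AlgebraicClosure.isAlgebraic ℚ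
  intro x hx
  obtain ⟨b, s, hb, hs, hsA, hxs⟩ := (mem_valuationSubring_iff A ℓ hℓ hA x).mp hx
  refine (mem_valuationSubring_iff A ℓ hℓ hA (τ x)).mpr
    ⟨τ b, τ s, hb.map τ, hs.map τ, ?_, ?_⟩
  · exact (hτ ⟨s, hs⟩).not.mpr hsA
  · rw [← map_mul, hxs]

/-- An automorphism stabilising the prime below `A` (elementwise) lies in the decomposition
group of `A`. -/
theorem mem_decompositionSubgroup_of_primeBelow_stable956 (ℓ : ℕ) (hℓ : ℓ.Prime)
    (A : ValuationSubring (AlgebraicClosure ℚ)) (hA : A.LiesOverPrime ℓ)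
    (σ : AlgebraicClosure ℚ ≃ₐ[ℚ] AlgebraicClosure ℚ)
    (hσQ : ∀ x, σ • x ∈ primeBelow A ↔ x ∈ primeBelow A) :
    σ ∈ A.decompositionSubgroup ℚ := by
  rw [MulAction.mem_stabilizer_iff]
  ext x
  rw [ValuationSubring.mem_smul_pointwise_iff_exists]
  constructor
  · rintro ⟨s, hs, rfl⟩
    exact map_mem_of_primeBelow_stable956 ℓ hℓ A hA σ hσQ s hs
  · intro hx
    refine ⟨σ⁻¹ • x, map_mem_of_primeBelow_stable956 ℓ hℓ A hA σ⁻¹ ?_ x hx, by simp⟩
    intro y
    rw [← hσQ (σ⁻¹ • y)]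
    simp

/-- If `σ` stabilises the prime `Q` below `A` and satisfies the Frobenius congruence
`σ x ≡ x ^ ℓ mod Q` on all algebraic integers, then `σ` is a Frobenius element at `A`. -/
theorem isFrobeniusAt_of_primeBelow956 (ℓ : ℕ) (hℓ : ℓ.Prime)
    (A : ValuationSubring (AlgebraicClosure ℚ)) (hA : A.LiesOverPrime ℓ)
    (σ : AlgebraicClosure ℚ ≃ₐ[ℚ] AlgebraicClosure ℚ)
    (hσQ : ∀ x, σ • x ∈ primeBelow A ↔ x ∈ primeBelow A)
    (hσF : ∀ x : integralClosure ℤ (AlgebraicClosure ℚ), σ • x - x ^ ℓ ∈ primeBelow A) :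
    A.IsFrobeniusAt σ ℓ := by
  have : Algebra.IsAlgebraic ℚ (AlgebraicClosure ℚ) := AlgebraicClosure.isAlgebraic ℚ
  have hσA : σ ∈ A.decompositionSubgroup ℚ :=
    mem_decompositionSubgroup_of_primeBelow_stable956 ℓ hℓ A hA σ hσQ
  refine ⟨hσA, ?_⟩
  intro x
  obtain ⟨a, rfl⟩ := IsLocalRing.residue_surjective x
  obtain ⟨b, s, hb, hs, hsA, hxs⟩ := (mem_valuationSubring_iff A ℓ hℓ hA a).mp a.2
  have hbA : b ∈ A := isIntegral_mem_valuationSubring A hb
  have hsA' : s ∈ A := isIntegral_mem_valuationSubring A hs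
  have hint : ∀ (y : AlgebraicClosure ℚ) (hy : IsIntegral ℤ y),
      (⟨σ, hσA⟩ : A.decompositionSubgroup ℚ) •
        IsLocalRing.residue A ⟨y, isIntegral_mem_valuationSubring A hy⟩ =
      (IsLocalRing.residue A ⟨y, isIntegral_mem_valuationSubring A hy⟩) ^ ℓ := by
    intro y hy
    rw [← IsLocalRing.ResidueField.residue_smul, ← map_pow, ← sub_eq_zero, ← map_sub,
      IsLocalRing.residue_eq_zero_iff, ← ValuationSubring.coe_mem_nonunits_iff]
    exact hσF ⟨y, hy⟩
  have h1 : IsLocalRing.residue A a * IsLocalRing.residue A ⟨s, hsA'⟩ =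
      IsLocalRing.residue A ⟨b, hbA⟩ := by
    rw [← map_mul]
    congr 1
    exact Subtype.ext hxs
  have h2 : IsLocalRing.residue A ⟨s, hsA'⟩ ≠ 0 := by
    rw [Ne, IsLocalRing.residue_eq_zero_iff, ← ValuationSubring.coe_mem_nonunits_iff]
    exact hsA
  have h3 := congrArg (fun z => (⟨σ, hσA⟩ : A.decompositionSubgroup ℚ) • z) h1
  simp only [smul_mul'] at h3
  rw [hint s hs, hint b hb, ← h1, mul_pow] at h3
  exact mul_right_cancel₀ (pow_ne_zero _ h2) h3

/-- For every valuation subring `A` of `ℚ̄` over the prime number `ℓ` there is a Frobenius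
element at `A` satisfying the Frobenius congruence on all algebraic integers. -/
theorem exists_frobeniusAt956 (ℓ : ℕ) (hℓ : ℓ.Prime)
    (A : ValuationSubring (AlgebraicClosure ℚ)) (hA : A.LiesOverPrime ℓ) :
    ∃ φ : AlgebraicClosure ℚ ≃ₐ[ℚ] AlgebraicClosure ℚ,
      A.IsFrobeniusAt φ ℓ ∧
      ∀ x : AlgebraicClosure ℚ, IsIntegral ℤ x → φ x - x ^ ℓ ∈ A.nonunits := by
  have := primeBelow_isPrime A
  have hℓQ : (ℓ : integralClosure ℤ (AlgebraicClosure ℚ)) ∈ primeBelow A := by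
    rw [mem_primeBelow]
    exact hA
  obtain ⟨σ, hσQ', hσF⟩ := exists_frob_integralClosure ℓ hℓ (primeBelow A) hℓQ
  have hσQ : ∀ x, σ • x ∈ primeBelow A ↔ x ∈ primeBelow A := by
    intro x
    conv_lhs => rw [← hσQ']
    exact Ideal.smul_mem_pointwise_smul_iff
  refine ⟨σ, isFrobeniusAt_of_primeBelow956 ℓ hℓ A hA σ hσQ hσF, ?_⟩
  intro x hx
  exact hσF ⟨x, hx⟩

end Fermat.Agent.Lib.Cheb
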