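import Mathlib
import Fermat.Agent.Lib.Cheb.SpecQ

/-!
# CHEB-Q: calculus of finite-sum Dirichlet densities (`SpecQ.HasLowerDensity`)

* `HasLowerDensity.mono`, `.anti`, `.diff_finset`, `.union`, `hasLowerDensity_biUnion`
* `hasLowerDensity_of_forall_lt`, `hasLowerDensity_of_bound` (from the `O(1)`-form)
* `hasLowerDensity_of_tsum` (from a `tsum` lower bound with weights)
* `HasLowerDensity.le_of_bound` : the client lemma (lower density `d` inside a set with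
  `∑_{p ∈ T} p^(-s) ≤ u log (1/(s-1)) + K` forces `d ≤ u`).
-/

set_option autoImplicit false

namespace Fermat.Agent.Lib.Cheb.SpecQ

/-- `log (1 / (s - 1))` is positive on `(1, 2)`. -/
theorem log_inv_sub_one_pos {s : ℝ} (h1 : 1 < s) (h2 : s < 2) : 0 < Real.log (1 / (s - 1)) := by
  apply Real.log_pos
  rw [lt_div_iff₀ (by linarith)]
  linarith

/-- `log (1 / (s - 1)) ≥ M` as soon as `s - 1 ≤ exp (-M)`. -/
theorem le_log_inv_sub_one {s M : ℝ} (h1 : 1 < s) (h2 : s - 1 ≤ Real.exp (-M)) :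
    M ≤ Real.log (1 / (s - 1)) := by
  have hpos : 0 < s - 1 := by linarith
  rw [one_div, Real.log_inv]
  have := Real.log_le_log hpos h2
  rw [Real.log_exp] at this
  linarith

theorem rpow_neg_le_one (p : ℕ) {s : ℝ} (hs : 0 < s) : (p : ℝ) ^ (-s) ≤ 1 := by
  rcases Nat.eq_zero_or_pos p with rfl | hp
  · rw [Nat.cast_zero, Real.zero_rpow (by linarith)]
    exact zero_le_one
  · apply Real.rpow_le_one_of_one_le_of_nonpos
    · exact_mod_cast hp
    · linarith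

theorem rpow_neg_nonneg (p : ℕ) (s : ℝ) : 0 ≤ (p : ℝ) ^ (-s) :=
  Real.rpow_nonneg (Nat.cast_nonneg p) _

theorem HasLowerDensity.mono {X Y : Set ℕ} {d : ℝ} (h : HasLowerDensity X d) (hXY : X ⊆ Y) :
    HasLowerDensity Y d := by
  intro ε hε
  obtain ⟨δ, hδ, H⟩ := h ε hε
  refine ⟨δ, hδ, fun s h1 h2 => ?_⟩
  obtain ⟨T, hT, hsum⟩ := H s h1 h2
  exact ⟨T, fun p hp => hXY (hT p hp), hsum⟩

theorem HasLowerDensity.anti {X : Set ℕ} {d d' : ℝ} (h : HasLowerDensity X d) (hd : d' ≤ d) :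
    HasLowerDensity X d' := by
  intro ε hε
  obtain ⟨δ, hδ, H⟩ := h ε hε
  refine ⟨min δ 1, lt_min hδ one_pos, fun s h1 h2 => ?_⟩
  have h3 : s < 1 + δ := lt_of_lt_of_le h2 (by linarith [min_le_left δ 1])
  have h4 : s < 2 := lt_of_lt_of_le h2 (by linarith [min_le_right δ 1])
  obtain ⟨T, hT, hsum⟩ := H s h1 h3
  refine ⟨T, hT, le_trans ?_ hsum⟩
  exact mul_le_mul_of_nonneg_right (by linarith) (log_inv_sub_one_pos h1 h4).le

theorem hasLowerDensity_of_forall_lt {X : Set ℕ} {d : ℝ}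
    (h : ∀ d' : ℝ, d' < d → HasLowerDensity X d') : HasLowerDensity X d := by
  intro ε hε
  obtain ⟨δ, hδ, H⟩ := h (d - ε / 2) (by linarith) (ε / 2) (by linarith)
  refine ⟨δ, hδ, fun s h1 h2 => ?_⟩
  obtain ⟨T, hT, hsum⟩ := H s h1 h2
  refine ⟨T, hT, ?_⟩
  have : d - ε / 2 - ε / 2 = d - ε := by ring
  rwa [this] at hsum

/-- From the `O(1)`-form on `(1, 2]`. -/
theorem hasLowerDensity_of_bound {X : Set ℕ} {d K : ℝ}
    (h : ∀ s : ℝ, 1 < s → s ≤ 2 → ∃ T : Finset ℕ, (∀ p ∈ T, p ∈ X) ∧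
      d * Real.log (1 / (s - 1)) - K ≤ ∑ p ∈ T, (p : ℝ) ^ (-s)) :
    HasLowerDensity X d := by
  intro ε hε
  refine ⟨min 1 (Real.exp (-(K / ε))), lt_min one_pos (Real.exp_pos _), fun s h1 h2 => ?_⟩
  have h3 : s < 2 := lt_of_lt_of_le h2 (by linarith [min_le_left 1 (Real.exp (-(K / ε)))])
  have h4 : s - 1 ≤ Real.exp (-(K / ε)) := by
    linarith [min_le_right 1 (Real.exp (-(K / ε)))]
  obtain ⟨T, hT, hsum⟩ := h s h1 h3.le
  refine ⟨T, hT, le_trans ?_ hsum⟩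
  have h5 : K / ε ≤ Real.log (1 / (s - 1)) := le_log_inv_sub_one h1 h4
  have h6 : K ≤ ε * Real.log (1 / (s - 1)) := by
    rw [div_le_iff₀ hε] at h5
    linarith
  linarith [sub_mul d ε (Real.log (1 / (s - 1)))]

theorem hasLowerDensity_empty_zero : HasLowerDensity (∅ : Set ℕ) 0 := by
  apply hasLowerDensity_of_bound (K := 0)
  intro s _ _
  exact ⟨∅, by simp, by simp⟩

theorem HasLowerDensity.diff_finset {X : Set ℕ} {d : ℝ} (h : HasLowerDensity X d)
    (S : Finset ℕ) : HasLowerDensity (X \ (S : Set ℕ)) d := by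
  classical
  intro ε hε
  obtain ⟨δ, hδ, H⟩ := h (ε / 2) (by linarith)
  set M : ℝ := (S.card : ℝ) / (ε / 2) with hM
  refine ⟨min δ (min 1 (Real.exp (-M))), lt_min hδ (lt_min one_pos (Real.exp_pos _)),
    fun s h1 h2 => ?_⟩
  have h3 : s < 1 + δ := lt_of_lt_of_le h2 (by linarith [min_le_left δ (min 1 (Real.exp (-M)))])
  have h4' : min δ (min 1 (Real.exp (-M))) ≤ min 1 (Real.exp (-M)) := min_le_right _ _
  have h4 : s < 2 := by linarith [min_le_left 1 (Real.exp (-M))]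
  have h5 : s - 1 ≤ Real.exp (-M) := by linarith [min_le_right 1 (Real.exp (-M))]
  obtain ⟨T, hT, hsum⟩ := H s h1 h3
  refine ⟨T \ S, fun p hp => ?_, ?_⟩
  · rw [Finset.mem_sdiff] at hp
    exact ⟨hT p hp.1, fun hpS => hp.2 (by exact_mod_cast hpS)⟩
  · have hsplit : ∑ p ∈ T, (p : ℝ) ^ (-s) =
        ∑ p ∈ T \ S, (p : ℝ) ^ (-s) + ∑ p ∈ T ∩ S, (p : ℝ) ^ (-s) := by
      rw [← Finset.sum_union (Finset.disjoint_sdiff_inter T S), Finset.sdiff_union_inter]
    have hS : ∑ p ∈ T ∩ S, (p : ℝ) ^ (-s) ≤ (S.card : ℝ) := by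
      calc ∑ p ∈ T ∩ S, (p : ℝ) ^ (-s) ≤ ∑ _p ∈ T ∩ S, (1 : ℝ) :=
            Finset.sum_le_sum fun p _ => rpow_neg_le_one p (by linarith)
        _ = ((T ∩ S).card : ℝ) := by simp
        _ ≤ (S.card : ℝ) := by
            exact_mod_cast Finset.card_le_card Finset.inter_subset_right
    have h6 : M ≤ Real.log (1 / (s - 1)) := le_log_inv_sub_one h1 h5
    have h7 : (S.card : ℝ) ≤ ε / 2 * Real.log (1 / (s - 1)) := by
      rw [hM, div_le_iff₀ (by linarith)] at h6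
      linarith
    have h8 : (d - ε) * Real.log (1 / (s - 1)) =
        (d - ε / 2) * Real.log (1 / (s - 1)) - ε / 2 * Real.log (1 / (s - 1)) := by ring
    linarith

theorem HasLowerDensity.union {X Y : Set ℕ} {d e : ℝ} (hX : HasLowerDensity X d)
    (hY : HasLowerDensity Y e) (hdisj : Disjoint X Y) : HasLowerDensity (X ∪ Y) (d + e) := by
  classical
  intro ε hε
  obtain ⟨δ₁, hδ₁, H₁⟩ := hX (ε / 2) (by linarith)
  obtain ⟨δ₂, hδ₂, H₂⟩ := hY (ε / 2) (by linarith)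
  refine ⟨min δ₁ δ₂, lt_min hδ₁ hδ₂, fun s h1 h2 => ?_⟩
  obtain ⟨T₁, hT₁, hs₁⟩ := H₁ s h1 (lt_of_lt_of_le h2 (by linarith [min_le_left δ₁ δ₂]))
  obtain ⟨T₂, hT₂, hs₂⟩ := H₂ s h1 (lt_of_lt_of_le h2 (by linarith [min_le_right δ₁ δ₂]))
  have hd : Disjoint T₁ T₂ := by
    rw [Finset.disjoint_left]
    intro p hp1 hp2
    exact (Set.disjoint_left.mp hdisj) (hT₁ p hp1) (hT₂ p hp2)
  refine ⟨T₁ ∪ T₂, fun p hp => ?_, ?_⟩
  · rcases Finset.mem_union.mp hp with h | h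
    · exact Or.inl (hT₁ p h)
    · exact Or.inr (hT₂ p h)
  · rw [Finset.sum_union hd]
    have : (d + e - ε) * Real.log (1 / (s - 1)) =
        (d - ε / 2) * Real.log (1 / (s - 1)) + (e - ε / 2) * Real.log (1 / (s - 1)) := by ring
    linarith

theorem hasLowerDensity_biUnion {ι : Type*} (I : Finset ι) (X : ι → Set ℕ) (d : ι → ℝ)
    (h : ∀ i ∈ I, HasLowerDensity (X i) (d i))
    (hdisj : ∀ i ∈ I, ∀ j ∈ I, i ≠ j → Disjoint (X i) (X j)) :
    HasLowerDensity (⋃ i ∈ I, X i) (∑ i ∈ I, d i) := by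
  classical
  induction I using Finset.induction_on with
  | empty => simpa using hasLowerDensity_empty_zero
  | insert a I ha ih =>
    have h1 : HasLowerDensity (⋃ i ∈ I, X i) (∑ i ∈ I, d i) :=
      ih (fun i hi => h i (Finset.mem_insert_of_mem hi))
        (fun i hi j hj hij => hdisj i (Finset.mem_insert_of_mem hi) j
          (Finset.mem_insert_of_mem hj) hij)
    have h2 : HasLowerDensity (X a) (d a) := h a (Finset.mem_insert_self a I)
    have h3 : Disjoint (X a) (⋃ i ∈ I, X i) := by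
      rw [Set.disjoint_iUnion₂_right]
      intro i hi
      exact hdisj a (Finset.mem_insert_self a I) i (Finset.mem_insert_of_mem hi)
        (fun hai => ha (hai ▸ hi))
    have h4 := h2.union h1 h3
    rw [Finset.sum_insert ha]
    have h5 : (⋃ i ∈ insert a I, X i) = X a ∪ ⋃ i ∈ I, X i := by
      ext p
      simp
    rw [h5]
    exact h4

/-- From a weighted `tsum` lower bound: if `0 ≤ f p ≤ w * p^(-s)` on primes, `f` vanishes off
`X`, and `∑' f ≥ d' log (1/(s-1)) - K`, then `X` has lower density at least `d' / w`. -/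
theorem hasLowerDensity_of_tsum {X : Set ℕ} {d' w K : ℝ} (hw : 0 < w)
    (f : ℝ → Nat.Primes → ℝ)
    (hsum : ∀ s : ℝ, 1 < s → s ≤ 2 → Summable (f s))
    (hle : ∀ s : ℝ, 1 < s → s ≤ 2 → ∀ p : Nat.Primes, f s p ≤ w * ((p : ℕ) : ℝ) ^ (-s))
    (hX : ∀ s : ℝ, 1 < s → s ≤ 2 → ∀ p : Nat.Primes, (p : ℕ) ∉ X → f s p ≤ 0)
    (hbound : ∀ s : ℝ, 1 < s → s ≤ 2 → d' * Real.log (1 / (s - 1)) - K ≤ ∑' p, f s p) :
    HasLowerDensity X (d' / w) := by
  classical
  apply hasLowerDensity_of_bound (K := (K + 1) / w)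
  intro s h1 h2
  have hS := (hsum s h1 h2).hasSum
  -- a finite partial sum within `1` of the total
  have hev := hS.eventually (lt_mem_nhds (show ∑' p, f s p - 1 < ∑' p, f s p by linarith))
  obtain ⟨F, hF⟩ := hev.exists
  -- keep only the primes in `X`
  set F' : Finset Nat.Primes := F.filter (fun p => (p : ℕ) ∈ X) with hF'
  have h3 : ∑ p ∈ F, f s p ≤ ∑ p ∈ F', f s p := by
    rw [hF', Finset.sum_filter]
    apply Finset.sum_le_sum
    intro p _
    split_ifs with hp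
    · exact le_rfl
    · exact hX s h1 h2 p hp
  have h4 : ∑ p ∈ F', f s p ≤ w * ∑ p ∈ F', ((p : ℕ) : ℝ) ^ (-s) := by
    rw [Finset.mul_sum]
    exact Finset.sum_le_sum fun p _ => hle s h1 h2 p
  refine ⟨F'.image (fun p : Nat.Primes => (p : ℕ)), fun p hp => ?_, ?_⟩
  · obtain ⟨q, hq, rfl⟩ := Finset.mem_image.mp hp
    rw [hF', Finset.mem_filter] at hq
    exact hq.2
  · have himg : ∑ p ∈ F'.image (fun p : Nat.Primes => (p : ℕ)), (p : ℝ) ^ (-s) =
        ∑ p ∈ F', ((p : ℕ) : ℝ) ^ (-s) :=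
      Finset.sum_image (f := fun n : ℕ => (n : ℝ) ^ (-s)) (g := fun p : Nat.Primes => (p : ℕ))
        (fun a _ b _ hab => Nat.Primes.coe_nat_injective hab)
    rw [himg]
    have h5 := hbound s h1 h2
    have h6 : d' * Real.log (1 / (s - 1)) - (K + 1) ≤ w * ∑ p ∈ F', ((p : ℕ) : ℝ) ^ (-s) := by
      linarith
    have h7 : d' / w * Real.log (1 / (s - 1)) - (K + 1) / w =
        (d' * Real.log (1 / (s - 1)) - (K + 1)) / w := by ring
    rw [h7, div_le_iff₀ hw]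
    linarith

/-- **Client lemma**: a set of lower density `≥ d` all of whose finite subsets satisfy
`∑ p^(-s) ≤ u log (1/(s-1)) + K` on `(1, 2]` has `d ≤ u`. -/
theorem HasLowerDensity.le_of_bound {X : Set ℕ} {d u K : ℝ} (h : HasLowerDensity X d)
    (hb : ∀ s : ℝ, 1 < s → s ≤ 2 → ∀ T : Finset ℕ, (∀ p ∈ T, p ∈ X) →
      ∑ p ∈ T, (p : ℝ) ^ (-s) ≤ u * Real.log (1 / (s - 1)) + K) : d ≤ u := by
  by_contra hlt
  rw [not_le] at hlt
  set ε : ℝ := (d - u) / 2 with hε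
  have hεpos : 0 < ε := by rw [hε]; linarith
  obtain ⟨δ, hδ, H⟩ := h ε hεpos
  set M : ℝ := K / ε + 1 with hM
  set t : ℝ := min (δ / 2) (min 1 (Real.exp (-M))) with ht
  have htpos : 0 < t := lt_min (by linarith) (lt_min one_pos (Real.exp_pos _))
  have ht1 : t ≤ δ / 2 := min_le_left _ _
  have ht2 : t ≤ 1 := le_trans (min_le_right _ _) (min_le_left _ _)
  have ht3 : t ≤ Real.exp (-M) := le_trans (min_le_right _ _) (min_le_right _ _)
  have h1 : (1 : ℝ) < 1 + t := by linarith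
  obtain ⟨T, hT, hsum⟩ := H (1 + t) h1 (by linarith)
  have hub := hb (1 + t) h1 (by linarith) T hT
  have hlog : M ≤ Real.log (1 / (1 + t - 1)) := le_log_inv_sub_one h1 (by linarith)
  have h2 : (d - ε - u) * Real.log (1 / (1 + t - 1)) ≤ K := by
    have := sub_mul (d - ε) u (Real.log (1 / (1 + t - 1)))
    linarith
  have h3 : d - ε - u = ε := by rw [hε]; ring
  rw [h3] at h2
  have h4 : ε * M ≤ K := le_trans (mul_le_mul_of_nonneg_left hlog hεpos.le) h2
  have h5 : ε * M = K + ε := by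
    rw [hM]
    field_simp
  linarith

theorem HasLowerDensity.le_of_hasUpperDensity {X Y : Set ℕ} {d u : ℝ}
    (hX : HasLowerDensity X d) (hY : HasUpperDensity Y u) (hXY : X ⊆ Y) : d ≤ u := by
  by_contra hlt
  rw [not_le] at hlt
  set ε : ℝ := (d - u) / 3 with hε
  have hεpos : 0 < ε := by rw [hε]; linarith
  obtain ⟨δ₁, hδ₁, H₁⟩ := hX ε hεpos
  obtain ⟨δ₂, hδ₂, H₂⟩ := hY ε hεpos
  set t : ℝ := min (min δ₁ δ₂ / 2) (1 / 2) with ht
  have htpos : 0 < t := lt_min (by have := lt_min hδ₁ hδ₂; linarith) (by norm_num)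
  have ht1 : t ≤ min δ₁ δ₂ / 2 := min_le_left _ _
  have ht2 : t ≤ 1 / 2 := min_le_right _ _
  have hmin1 : min δ₁ δ₂ ≤ δ₁ := min_le_left _ _
  have hmin2 : min δ₁ δ₂ ≤ δ₂ := min_le_right _ _
  have hmpos : 0 < min δ₁ δ₂ := lt_min hδ₁ hδ₂
  have h1 : (1 : ℝ) < 1 + t := by linarith
  obtain ⟨T, hT, hsum⟩ := H₁ (1 + t) h1 (by linarith)
  have hub := H₂ (1 + t) h1 (by linarith) T (fun p hp => hXY (hT p hp))
  have hlog : 0 < Real.log (1 / (1 + t - 1)) := log_inv_sub_one_pos h1 (by linarith)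
  have h2 : (d - ε) * Real.log (1 / (1 + t - 1)) ≤ (u + ε) * Real.log (1 / (1 + t - 1)) :=
    le_trans hsum hub
  have h3 : d - ε ≤ u + ε := le_of_mul_le_mul_right h2 hlog
  rw [hε] at h3
  linarith

end Fermat.Agent.Lib.Cheb.SpecQ
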