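import Mathlib
import Fermat.Prelude.Def_EllipticCurve_FrobeniusTrace
import Fermat.Agent.Lib.Cheb.Spec
import Fermat.Agent.Lib.Cheb.SpecQ

/-!
# Shared library CHEB — Tier 3 ("CHEB-Q"): frozen statements of the internal pieces

Top-level interface: `SpecQ.lean`.  Plan, owners, status: `coord/CHEB-Q.md` on `origin/helper993`.

* `AbstractDirichletQStatement` (Q-ABS): the abstract Dirichlet lemma of CYC (helper221's
  `AbstractDirichletStatement`, same hypotheses) with the **quantitative** conclusion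
  `∑_{p ≡ a} c(p) p^{-s} ≥ |A|⁻¹ log (1/(s-1)) - C`.
* `CycSumStatement` (Q-SUM): the same for `c = primeCount (L^⟨g⟩)` in the situation of CYC
  (= helper221's GLUE with Q-ABS instead of ABS).
* `CycCountStatement` (Q-ALG): for `p ≡ a mod m` the degree-one primes of `L^⟨g⟩` over `p`
  are the primes of `L` with Frobenius `g`; orbit count `c(p) · ord g · |C_g| ≤ |G|`.
* `FrobDisjointStatement` (Q-DISJ): a prime has at most one Frobenius class.
* `ChebDensitySetStatement` (Q-SET): finite level, arbitrary subsets `C ⊆ Gal(L/ℚ)`.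
* `BridgeDensitySetStatement` (Q-BR): from Q-SET to the client statement.
-/

set_option autoImplicit false

open NumberField Filter Topology
open scoped Pointwise

namespace Fermat.Agent.Lib.Cheb.SpecQ

open Fermat.Agent.Lib.Cheb.Spec

/-- (Q-ABS) quantitative abstract Dirichlet lemma. -/
def AbstractDirichletQStatement : Prop :=
  ∀ (m : ℕ) [NeZero m] (c : Nat.Primes → ℝ), (∀ p, 0 ≤ c p) →
    (∀ s : ℝ, 1 < s → s ≤ 2 → Summable (fun p : Nat.Primes => c p * (p : ℝ) ^ (-s))) →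
    ∀ A : Subgroup (ZMod m)ˣ,
    (∃ B : Finset ℕ, ∀ p : Nat.Primes, (p : ℕ) ∉ B → c p ≠ 0 →
      ∃ u ∈ A, ((u : (ZMod m)ˣ) : ZMod m) = ((p : ℕ) : ZMod m)) →
    (∃ C : ℝ, ∀ s : ℝ, 1 < s → s ≤ 2 →
      |(∑' p : Nat.Primes, c p * (p : ℝ) ^ (-s)) - Real.log (1 / (s - 1))| ≤ C) →
    (∃ C : ℝ, ∀ s : ℝ, 1 < s → s ≤ 2 →
      (Nat.card A : ℝ)⁻¹ * Real.log (1 / (s - 1)) - C ≤
        ∑' p : Nat.Primes, if ((p : ℕ) : ZMod m) = 1 then c p * (p : ℝ) ^ (-s) else 0) →
    (∀ χ : DirichletCharacter ℂ m, (∃ u ∈ A, χ ((u : (ZMod m)ˣ) : ZMod m) ≠ 1) →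
      ∃ (Λ : ℝ → ℂ) (ℓ : ℂ) (C : ℝ), ContinuousOn Λ (Set.Ioi 1) ∧
        Tendsto (fun s => Complex.exp (Λ s)) (𝓝[>] 1) (𝓝 ℓ) ∧
        ∀ s : ℝ, 1 < s → s ≤ 2 →
          ‖Λ s - ∑' p : Nat.Primes, χ ((p : ℕ) : ZMod m) * ((c p * (p : ℝ) ^ (-s) : ℝ) : ℂ)‖ ≤ C) →
    ∀ a ∈ A, ∃ C : ℝ, ∀ s : ℝ, 1 < s → s ≤ 2 →
      (Nat.card A : ℝ)⁻¹ * Real.log (1 / (s - 1)) - C ≤
        ∑' p : Nat.Primes, if ((p : ℕ) : ZMod m) = ((a : (ZMod m)ˣ) : ZMod m)
          then c p * (p : ℝ) ^ (-s) else 0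

/-- (Q-SUM) quantitative prime sum in the class of `g`, situation of `Spec.CycStatement`. -/
def CycSumStatement : Prop :=
  ∀ (L : Type) [Field L] [NumberField L] [IsGalois ℚ L] (m : ℕ) [NeZero m] (ζ : L)
    (hζ : IsPrimitiveRoot ζ m) (g : L ≃ₐ[ℚ] L), (∀ k : ℕ, (g ^ k) ζ = ζ → g ^ k = 1) →
    ∃ C : ℝ, ∀ s : ℝ, 1 < s → s ≤ 2 →
      Summable (fun p : Nat.Primes =>
        (primeCount (IntermediateField.fixedField (Subgroup.zpowers g)) p : ℝ) *
          (p : ℝ) ^ (-s)) ∧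
      (orderOf g : ℝ)⁻¹ * Real.log (1 / (s - 1)) - C ≤
        ∑' p : Nat.Primes,
          if ((p : ℕ) : ZMod m) = ((hζ.autToPow ℚ g : (ZMod m)ˣ) : ZMod m)
          then (primeCount (IntermediateField.fixedField (Subgroup.zpowers g)) p : ℝ) *
            (p : ℝ) ^ (-s)
          else 0

/-- (Q-ALG) orbit count in the situation of `Spec.CycStatement`. -/
def CycCountStatement : Prop :=
  ∀ (L : Type) [Field L] [NumberField L] [IsGalois ℚ L] (m : ℕ) [NeZero m] (ζ : L)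
    (hζ : IsPrimitiveRoot ζ m) (g : L ≃ₐ[ℚ] L), (∀ k : ℕ, (g ^ k) ζ = ζ → g ^ k = 1) →
    ∃ B : Finset ℕ, ∀ p : ℕ, p.Prime → p ∉ B →
      (p : ZMod m) = ((hζ.autToPow ℚ g : (ZMod m)ˣ) : ZMod m) →
      primeCount (IntermediateField.fixedField (Subgroup.zpowers g)) p ≠ 0 →
      p ∈ frobPrimes L g ∧
      primeCount (IntermediateField.fixedField (Subgroup.zpowers g)) p * orderOf g *
        Nat.card (conjugatesOf g) ≤ Nat.card (L ≃ₐ[ℚ] L)

/-- (Q-CYC) assembly of the quantitative cyclotomic case. -/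
def CycDensityGlueStatement : Prop :=
  CycSumStatement → CycCountStatement → CycDensityStatement

/-- (Q-DISJ) a rational prime has at most one Frobenius class. -/
def FrobDisjointStatement : Prop :=
  ∀ (L : Type) [Field L] [NumberField L] [IsGalois ℚ L] (g h : L ≃ₐ[ℚ] L) (p : ℕ),
    p ∈ frobPrimes L g → p ∈ frobPrimes L h → IsConj g h

/-- (Q-SET) finite-level Chebotarev density theorem for arbitrary subsets of the Galois group. -/
def ChebDensitySetStatement : Prop :=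
  ∀ (L : Type) [Field L] [NumberField L] [IsGalois ℚ L] (C : Set (L ≃ₐ[ℚ] L)),
    HasLowerDensity {p | ∃ g ∈ C, p ∈ frobPrimes L g}
      ((Nat.card ↥C : ℝ) / (Nat.card (L ≃ₐ[ℚ] L) : ℝ))

/-- (Q-SET glue) -/
def ChebDensitySetGlueStatement : Prop :=
  FrobDisjointStatement → ChebDensityFiniteStatement → ChebDensitySetStatement

/-- (Q-BR) bridge from Q-SET to the client statement. -/
def BridgeDensitySetStatement : Prop :=
  ChebDensitySetStatement → ChebDensityStatement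

end Fermat.Agent.Lib.Cheb.SpecQ
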