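import Fermat.Agent.Lib.Cheb.H993.QAdapt
import Fermat.Agent.Lib.Cheb.H993.QSet
import Fermat.Agent.Lib.Cheb.H993.QDisj
import Fermat.Agent.Lib.Cheb.H116.QBridge
import Fermat.Agent.Lib.Cheb.H221.QSum
import Fermat.Agent.Lib.Cheb.H943.Frob
import Fermat.Agent.Lib.ChebQ.H968.Cross

/-!
# CHEB-Q: the whole chain, conditional on the last open leaf Q-ALG (`SpecQ.CycCountStatement`)

    Q-SUM (H221) + Q-ALG ──► Q-CYC (O(1)-form, H993) ──► CROSS-Q (H968) ──► finite level
      ──► Q-SET (H993, with Q-DISJ H993) ──► Q-BR (H116) ──► client statements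
-/

set_option autoImplicit false

namespace Fermat.Agent.Lib.Cheb

/-- finite level: primes with Frobenius class of `g` have lower density `≥ |C_g| / |G|` -/
theorem chebDensityFinite_of_cycCount (h : SpecQ.CycCountStatement) :
    SpecQ.ChebDensityFiniteStatement :=
  H993.chebDensityFinite_of_968
    (Fermat.Agent.Lib.ChebQ.H968.crossDensity H943.frobStatement
      (H993.cycDensity968_of H221.cycSum h))

/-- finite level, arbitrary subsets of the Galois group -/
theorem chebDensitySet_of_cycCount (h : SpecQ.CycCountStatement) :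
    SpecQ.ChebDensitySetStatement :=
  H993.chebDensitySetGlue H993.frobDisjoint (chebDensityFinite_of_cycCount h)

/-- client statement (`SpecQ` form) -/
theorem chebDensity_of_cycCount (h : SpecQ.CycCountStatement) : SpecQ.ChebDensityStatement :=
  H116.bridgeDensitySet (chebDensitySet_of_cycCount h)

/-- client statement (`ChebQ.Spec` form, Deligne–Serre Lemma 8.4 input) -/
theorem chebDensityClient_of_cycCount (h : SpecQ.CycCountStatement) :
    Fermat.Agent.Lib.ChebQ.Spec.ChebDensityClientStatement :=
  H993.client968_of (chebDensity_of_cycCount h)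

end Fermat.Agent.Lib.Cheb
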