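import Fermat.Agent.Lib.Cheb.H761.PrimeCountBound
import Fermat.Agent.Lib.Cheb.H764.Count
import Fermat.Agent.Lib.Cheb.H943.Frob
import Fermat.Agent.Lib.Cheb.H993.Glue

/-!
# CHEB, Tier 1, finite level: the qualitative Frobenius density theorem for Galois number fields

Assembly of the pieces `Z`, `B0` (helper761), `A` (helper764), `D` (helper943), `M` (helper993).
-/

set_option autoImplicit false

namespace Fermat.Agent.Lib.Cheb

/-- **Frobenius density theorem (qualitative), finite level.**  For a Galois number field `L`,
`σ ∈ Gal(L/ℚ)` and a finite set `S` of primes there are a prime `p ∉ S`, a prime `P` of `𝓞 L`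
above `p` with trivial inertia and an arithmetic Frobenius `τ` at `P` with `⟨τ⟩ = ⟨σ⟩`. -/
theorem frobFinite : Spec.FrobFiniteStatement :=
  H993.frobFinite H761.primeSum_statement H761.primeCountBound_statement H764.count
    H943.frobStatement

end Fermat.Agent.Lib.Cheb
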